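import Fermat.Agent.S20.GB140.LevelOne

/-!
# S20 — graded basis, part B (helper140): generators and freeness

For every weight `w` choose representatives `rep w i` of a basis of
`MF Γ w ⧸ (E₄ · MF Γ (w - 4) + E₆ · MF Γ (w - 6))`.  The family of all these representatives
generates `⊕ MF Γ w` freely over the level one forms.

Coefficient families are finitely supported functions `c : JJ Γ →₀ (ℍ → ℂ)`, the evaluation is the
linear map `Phi Γ c = ∑ j, c j * FJ Γ j`.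
-/

set_option autoImplicit false

noncomputable section

namespace Fermat.Agent.S20.GB140

open Fermat.Agent.S20
open UpperHalfPlane ModularForm EisensteinSeries MatrixGroups Filter
open scoped Manifold Topology Real

variable (Γ : Subgroup SL(2, ℤ))

/-- The submodule `E₄ · MF Γ (w - 4) + E₆ · MF Γ (w - 6)` of `MF Γ w`. -/
def decSub (w : ℤ) : Submodule ℂ (MF Γ w) where
  carrier := {f | ∃ x ∈ MF Γ (w - 4), ∃ y ∈ MF Γ (w - 6), (f : ℍ → ℂ) = ⇑E₄ * x + ⇑E₆ * y}
  zero_mem' := ⟨0, Submodule.zero_mem _, 0, Submodule.zero_mem _, by simp⟩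
  add_mem' := by
    rintro f g ⟨x, hx, y, hy, hf⟩ ⟨x', hx', y', hy', hg⟩
    refine ⟨x + x', Submodule.add_mem _ hx hx', y + y', Submodule.add_mem _ hy hy', ?_⟩
    rw [Submodule.coe_add, hf, hg]
    ring
  smul_mem' := by
    rintro c f ⟨x, hx, y, hy, hf⟩
    refine ⟨c • x, Submodule.smul_mem _ c hx, c • y, Submodule.smul_mem _ c hy, ?_⟩
    rw [Submodule.coe_smul, hf, smul_add, mul_smul_comm, mul_smul_comm]

lemma mem_decSub {w : ℤ} (f : MF Γ w) :
    f ∈ decSub Γ w ↔ ∃ x ∈ MF Γ (w - 4), ∃ y ∈ MF Γ (w - 6), (f : ℍ → ℂ) = ⇑E₄ * x + ⇑E₆ * y :=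
  Iff.rfl

/-- The quotient `MF Γ w ⧸ (E₄ · MF Γ (w - 4) + E₆ · MF Γ (w - 6))`. -/
abbrev Quo (w : ℤ) : Type := (MF Γ w) ⧸ decSub Γ w

/-- Index set of the chosen basis of `Quo Γ w`. -/
def Idx (w : ℤ) : Type := ↥(Module.Basis.ofVectorSpaceIndex ℂ (Quo Γ w))

/-- The chosen basis of `Quo Γ w`. -/
def bas (w : ℤ) : Module.Basis (Idx Γ w) ℂ (Quo Γ w) := Module.Basis.ofVectorSpace ℂ (Quo Γ w)

/-- Representatives of the basis vectors. -/
def rep (w : ℤ) (i : Idx Γ w) : MF Γ w :=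
  Classical.choose (Submodule.mkQ_surjective (decSub Γ w) (bas Γ w i))

lemma mkQ_rep (w : ℤ) (i : Idx Γ w) : (decSub Γ w).mkQ (rep Γ w i) = bas Γ w i :=
  Classical.choose_spec (Submodule.mkQ_surjective (decSub Γ w) (bas Γ w i))

/-- The index type of the graded basis. -/
abbrev JJ : Type := Σ w : ℤ, Idx Γ w

/-- The weights. -/
def wtJ : JJ Γ → ℤ := fun j => j.1

/-- The generators. -/
def FJ : JJ Γ → ℍ → ℂ := fun j => (rep Γ j.1 j.2 : ℍ → ℂ)

lemma FJ_mem (j : JJ Γ) : FJ Γ j ∈ MF Γ (wtJ Γ j) := (rep Γ j.1 j.2).2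

/-! ## Coefficient families -/

/-- Coefficient families of total weight `w`. -/
def coeffSub (w : ℤ) : Submodule ℂ (JJ Γ →₀ (ℍ → ℂ)) where
  carrier := {c | ∀ j, c j ∈ MF ⊤ (w - wtJ Γ j)}
  zero_mem' := fun j => by
    simp only [Finsupp.coe_zero, Pi.zero_apply]
    exact Submodule.zero_mem _
  add_mem' := by
    intro c d hc hd j
    rw [Finsupp.add_apply]
    exact Submodule.add_mem _ (hc j) (hd j)
  smul_mem' := by
    intro a c hc j
    rw [Finsupp.smul_apply]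
    exact Submodule.smul_mem _ a (hc j)

lemma mem_coeffSub {w : ℤ} {c : JJ Γ →₀ (ℍ → ℂ)} :
    c ∈ coeffSub Γ w ↔ ∀ j, c j ∈ MF ⊤ (w - wtJ Γ j) := Iff.rfl

/-- The evaluation `c ↦ ∑ j, c j * FJ Γ j`. -/
def Phi : (JJ Γ →₀ (ℍ → ℂ)) →ₗ[ℂ] (ℍ → ℂ) :=
  Finsupp.lsum ℂ (fun j => LinearMap.mulRight ℂ (FJ Γ j))

lemma Phi_apply (c : JJ Γ →₀ (ℍ → ℂ)) : Phi Γ c = c.sum fun j a => a * FJ Γ j := by
  simp only [Phi, Finsupp.lsum_apply]
  rfl

lemma Phi_single (j : JJ Γ) (a : ℍ → ℂ) : Phi Γ (Finsupp.single j a) = a * FJ Γ j := by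
  rw [Phi_apply, Finsupp.sum_single_index (by simp)]

lemma Phi_mem {w : ℤ} {c : JJ Γ →₀ (ℍ → ℂ)} (hc : c ∈ coeffSub Γ w) : Phi Γ c ∈ MF Γ w := by
  rw [Phi_apply]
  refine Submodule.sum_mem _ fun j _ => ?_
  exact mul_mem_MF_cast (hc j) (FJ_mem Γ j) (by ring)

/-- Multiplication of all coefficients by a function. -/
def mulE (E : ℍ → ℂ) : (JJ Γ →₀ (ℍ → ℂ)) →ₗ[ℂ] (JJ Γ →₀ (ℍ → ℂ)) :=
  Finsupp.mapRange.linearMap (LinearMap.mulLeft ℂ E)

@[simp] lemma mulE_apply (E : ℍ → ℂ) (c : JJ Γ →₀ (ℍ → ℂ)) (j : JJ Γ) :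
    mulE Γ E c j = E * c j := by
  simp [mulE]

lemma Phi_mulE (E : ℍ → ℂ) (c : JJ Γ →₀ (ℍ → ℂ)) : Phi Γ (mulE Γ E c) = E * Phi Γ c := by
  induction c using Finsupp.induction_linear with
  | zero => simp
  | add c d hc hd => rw [map_add, map_add, map_add, hc, hd, mul_add]
  | single j a =>
    have : mulE Γ E (Finsupp.single j a) = Finsupp.single j (E * a) := by
      classical
      ext j' z
      rw [mulE_apply, Finsupp.single_apply, Finsupp.single_apply]
      split_ifs <;> simp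
    rw [this, Phi_single, Phi_single, mul_assoc]

lemma mulE_mem {a w w' : ℤ} {E : ℍ → ℂ} (hE : E ∈ MF ⊤ a) {c : JJ Γ →₀ (ℍ → ℂ)}
    (hc : c ∈ coeffSub Γ w) (h : a + w = w') : mulE Γ E c ∈ coeffSub Γ w' := by
  intro j
  rw [mulE_apply]
  exact mul_mem_MF_cast hE (hc j) (by rw [← h]; ring)

lemma single_mem {w : ℤ} {j : JJ Γ} {a : ℍ → ℂ} (ha : a ∈ MF ⊤ (w - wtJ Γ j)) :
    Finsupp.single j a ∈ coeffSub Γ w := by
  classical
  intro j'
  rw [Finsupp.single_apply]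
  split_ifs with h
  · subst h
    exact ha
  · exact Submodule.zero_mem _

/-! ## The top part -/

/-- Embedding of scalar families on the fibre of weight `w`. -/
def topEmb (w : ℤ) (r : Idx Γ w →₀ ℂ) : JJ Γ →₀ (ℍ → ℂ) :=
  Finsupp.mapDomain (Sigma.mk w) (r.mapRange (fun a : ℂ => (fun _ : ℍ => a)) rfl)

lemma topEmb_apply_same (w : ℤ) (r : Idx Γ w →₀ ℂ) (i : Idx Γ w) :
    topEmb Γ w r ⟨w, i⟩ = fun _ => r i := by
  rw [topEmb, Finsupp.mapDomain_apply sigma_mk_injective]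
  rfl

lemma topEmb_apply_ne (w : ℤ) (r : Idx Γ w →₀ ℂ) (j : JJ Γ) (h : j.1 ≠ w) :
    topEmb Γ w r j = 0 := by
  rw [topEmb]
  apply Finsupp.mapDomain_of_notMem_range
  rintro ⟨i, rfl⟩
  exact h rfl

lemma topEmb_mem (w : ℤ) (r : Idx Γ w →₀ ℂ) : topEmb Γ w r ∈ coeffSub Γ w := by
  rintro ⟨w', i⟩
  by_cases h : w' = w
  · subst h
    rw [topEmb_apply_same]
    exact MF_cast (const_mem_MF_top (r i)) (by simp [wtJ])
  · rw [topEmb_apply_ne Γ w r ⟨w', i⟩ h]
    exact Submodule.zero_mem _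

lemma Phi_topEmb (w : ℤ) (r : Idx Γ w →₀ ℂ) :
    Phi Γ (topEmb Γ w r) = ((Finsupp.linearCombination ℂ (rep Γ w) r : MF Γ w) : ℍ → ℂ) := by
  rw [Phi_apply, topEmb, Finsupp.sum_mapDomain_index (by simp) (by intros; rw [add_mul]),
    Finsupp.sum_mapRange_index (by intro i; funext z; simp), Finsupp.linearCombination_apply]
  rw [← Submodule.subtype_apply, map_finsuppSum]
  refine Finsupp.sum_congr fun i _ => ?_
  funext z
  simp [FJ]

/-- A combination of the representatives which lies in `decSub` is trivial. -/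
lemma eq_zero_of_linearCombination_mem (w : ℤ) (r : Idx Γ w →₀ ℂ)
    (h : Finsupp.linearCombination ℂ (rep Γ w) r ∈ decSub Γ w) : r = 0 := by
  have h1 : (decSub Γ w).mkQ (Finsupp.linearCombination ℂ (rep Γ w) r) = 0 :=
    (Submodule.Quotient.mk_eq_zero _).mpr h
  rw [Finsupp.linearCombination_apply, map_finsuppSum] at h1
  have h2 : Finsupp.linearCombination ℂ (bas Γ w) r = 0 := by
    rw [Finsupp.linearCombination_apply, ← h1]
    refine Finsupp.sum_congr fun i _ => ?_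
    rw [map_smul, mkQ_rep]
  exact (linearIndependent_iff.mp (bas Γ w).linearIndependent) r h2

/-! ## Generation -/

lemma mkQ_linearCombination_rep (w : ℤ) (r : Idx Γ w →₀ ℂ) :
    (decSub Γ w).mkQ (Finsupp.linearCombination ℂ (rep Γ w) r) =
      Finsupp.linearCombination ℂ (bas Γ w) r := by
  rw [Finsupp.linearCombination_apply, map_finsuppSum, Finsupp.linearCombination_apply]
  refine Finsupp.sum_congr fun i _ => ?_
  rw [map_smul, mkQ_rep]

variable [Γ.FiniteIndex]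

theorem gen_aux (n : ℕ) :
    ∀ w : ℤ, w < n → ∀ f ∈ MF Γ w, ∃ c ∈ coeffSub Γ w, Phi Γ c = f := by
  induction n with
  | zero =>
    intro w hw f hf
    have h0 : f = 0 := by
      have h := C0h559.MF_eq_bot_of_neg (Γ := Γ) (k := w) (by simpa using hw)
      rw [h] at hf
      exact (Submodule.mem_bot ℂ).mp hf
    exact ⟨0, Submodule.zero_mem _, by rw [map_zero, h0]⟩
  | succ n ih =>
    intro w hw f hf
    have hw' : w ≤ n := by push_cast at hw; omega
    set fM : MF Γ w := ⟨f, hf⟩ with hfM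
    set r : Idx Γ w →₀ ℂ := (bas Γ w).repr ((decSub Γ w).mkQ fM) with hr
    have hmem : fM - Finsupp.linearCombination ℂ (rep Γ w) r ∈ decSub Γ w := by
      rw [← Submodule.Quotient.mk_eq_zero, Submodule.Quotient.mk_sub]
      have h1 := mkQ_linearCombination_rep Γ w r
      rw [Submodule.mkQ_apply] at h1
      rw [h1, hr, Module.Basis.linearCombination_repr, Submodule.mkQ_apply, sub_self]
    obtain ⟨x, hx, y, hy, hxy⟩ := hmem
    obtain ⟨c₁, hc₁, hΦ₁⟩ := ih (w - 4) (by omega) x hx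
    obtain ⟨c₂, hc₂, hΦ₂⟩ := ih (w - 6) (by omega) y hy
    refine ⟨topEmb Γ w r + mulE Γ ⇑E₄ c₁ + mulE Γ ⇑E₆ c₂, ?_, ?_⟩
    · exact Submodule.add_mem _ (Submodule.add_mem _ (topEmb_mem Γ w r)
        (mulE_mem Γ L1.E₄_mem hc₁ (by ring))) (mulE_mem Γ L1.E₆_mem hc₂ (by ring))
    · rw [map_add, map_add, Phi_topEmb, Phi_mulE, Phi_mulE, hΦ₁, hΦ₂]
      rw [Submodule.coe_sub] at hxy
      rw [add_assoc, ← hxy]
      simp [hfM]

/-- **Generation**: every form is a combination of the generators with level one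
coefficients. -/
theorem gen_coeff {w : ℤ} {f : ℍ → ℂ} (hf : f ∈ MF Γ w) :
    ∃ c ∈ coeffSub Γ w, Phi Γ c = f :=
  gen_aux Γ (w.toNat + 1) w (by push_cast; omega) f hf

/-! ## Freeness -/

lemma wtJ_nonneg (j : JJ Γ) : 0 ≤ wtJ Γ j := by
  by_contra hneg
  push Not at hneg
  obtain ⟨w, i⟩ := j
  simp only [wtJ] at hneg
  have hbot := C0h559.MF_eq_bot_of_neg (Γ := Γ) (k := w) hneg
  have hne : bas Γ w i ≠ 0 := (bas Γ w).ne_zero i
  apply hne
  obtain ⟨f, hf⟩ := Submodule.mkQ_surjective (decSub Γ w) (bas Γ w i)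
  have h3 : ∀ S : Submodule ℂ (ℍ → ℂ), S = ⊥ → ∀ g ∈ S, g = 0 := by
    rintro S rfl g hg
    exact (Submodule.mem_bot ℂ).mp hg
  have hf0 : f = 0 := Subtype.ext (h3 _ hbot _ f.2)
  rw [← hf, hf0, map_zero]

lemma exists_decPair (x : ℤ) (c : ℍ → ℂ) :
    ∃ p : (ℍ → ℂ) × (ℍ → ℂ), (c = 0 → p = 0) ∧
      (x ≠ 0 → c ∈ MF ⊤ x →
        p.1 ∈ MF ⊤ (x - 4) ∧ p.2 ∈ MF ⊤ (x - 6) ∧ c = ⇑E₄ * p.1 + ⇑E₆ * p.2) := by
  by_cases hc : c = 0
  · refine ⟨0, fun _ => rfl, fun _ _ => ⟨Submodule.zero_mem _, Submodule.zero_mem _, ?_⟩⟩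
    simp [hc]
  by_cases hx : x ≠ 0 ∧ c ∈ MF ⊤ x
  · obtain ⟨a, ha, b, hb, hab⟩ := levelOne_decomp hx.1 hx.2
    exact ⟨(a, b), fun h => absurd h hc, fun _ _ => ⟨ha, hb, hab⟩⟩
  · exact ⟨0, fun _ => rfl, fun h1 h2 => absurd ⟨h1, h2⟩ hx⟩

/-- A chosen decomposition `c = E₄ a + E₆ b` of a level one form of nonzero weight. -/
def decPair (x : ℤ) (c : ℍ → ℂ) : (ℍ → ℂ) × (ℍ → ℂ) := Classical.choose (exists_decPair x c)

lemma decPair_zero (x : ℤ) : decPair x 0 = 0 :=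
  (Classical.choose_spec (exists_decPair x 0)).1 rfl

lemma decPair_spec {x : ℤ} (hx : x ≠ 0) {c : ℍ → ℂ} (hc : c ∈ MF ⊤ x) :
    (decPair x c).1 ∈ MF ⊤ (x - 4) ∧ (decPair x c).2 ∈ MF ⊤ (x - 6) ∧
      c = ⇑E₄ * (decPair x c).1 + ⇑E₆ * (decPair x c).2 :=
  (Classical.choose_spec (exists_decPair x c)).2 hx hc

omit [Γ.FiniteIndex] in
lemma topEmb_zero (w : ℤ) : topEmb Γ w 0 = 0 := by
  simp [topEmb]

theorem free_aux (n : ℕ) :
    ∀ w : ℤ, w < n → ∀ c ∈ coeffSub Γ w, Phi Γ c = 0 → c = 0 := by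
  induction n with
  | zero =>
    intro w hw c hc _
    ext j : 1
    have h1 : w - wtJ Γ j < 0 := by
      have := wtJ_nonneg Γ j
      push_cast at hw
      omega
    rw [MF_top_neg h1 (hc j)]
    rfl
  | succ n ih =>
    intro w hw c hc hΦ
    classical
    have hw' : w ≤ n := by push_cast at hw; omega
    -- the scalars of the top part
    set r : Idx Γ w →₀ ℂ := Finsupp.comapDomain (Sigma.mk w)
      (c.mapRange (fun f : ℍ → ℂ => f UpperHalfPlane.I) rfl) sigma_mk_injective.injOn with hr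
    have hr_apply : ∀ i, r i = c ⟨w, i⟩ UpperHalfPlane.I := fun i => by
      rw [hr, Finsupp.comapDomain_apply, Finsupp.mapRange_apply]
    -- the lower coefficient families
    set a : JJ Γ →₀ (ℍ → ℂ) := Finsupp.onFinset c.support
      (fun j => if wtJ Γ j = w then 0 else (decPair (w - wtJ Γ j) (c j)).1)
      (fun j hj => by
        rw [Finsupp.mem_support_iff]
        intro h0
        apply hj
        rw [h0, decPair_zero]
        simp) with ha_def
    set b : JJ Γ →₀ (ℍ → ℂ) := Finsupp.onFinset c.support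
      (fun j => if wtJ Γ j = w then 0 else (decPair (w - wtJ Γ j) (c j)).2)
      (fun j hj => by
        rw [Finsupp.mem_support_iff]
        intro h0
        apply hj
        rw [h0, decPair_zero]
        simp) with hb_def
    have ha_apply : ∀ j, a j = if wtJ Γ j = w then 0 else (decPair (w - wtJ Γ j) (c j)).1 :=
      fun j => rfl
    have hb_apply : ∀ j, b j = if wtJ Γ j = w then 0 else (decPair (w - wtJ Γ j) (c j)).2 :=
      fun j => rfl
    have hdecomp : c = topEmb Γ w r + mulE Γ ⇑E₄ a + mulE Γ ⇑E₆ b := by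
      ext j : 1
      rw [Finsupp.add_apply, Finsupp.add_apply, mulE_apply, mulE_apply, ha_apply, hb_apply]
      by_cases hj : wtJ Γ j = w
      · obtain ⟨w', i⟩ := j
        simp only [wtJ] at hj
        subst hj
        have hwt : wtJ Γ ⟨w', i⟩ = w' := rfl
        rw [topEmb_apply_same, if_pos hwt, if_pos hwt, mul_zero, mul_zero, add_zero, add_zero,
          hr_apply]
        have hcj : c ⟨w', i⟩ ∈ MF ⊤ 0 := MF_cast (hc ⟨w', i⟩) (by simp [wtJ])
        obtain ⟨v, hv⟩ := C0h559.MF_zero_eq_const (Γ := ⊤) hcj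
        rw [hv]
      · rw [topEmb_apply_ne Γ w r j hj, if_neg hj, if_neg hj, zero_add]
        exact (decPair_spec (sub_ne_zero.mpr (Ne.symm hj)) (hc j)).2.2
    have ha : a ∈ coeffSub Γ (w - 4) := by
      intro j
      rw [ha_apply]
      split_ifs with hj
      · exact Submodule.zero_mem _
      · exact MF_cast (decPair_spec (sub_ne_zero.mpr (Ne.symm hj)) (hc j)).1 (by ring)
    have hb : b ∈ coeffSub Γ (w - 6) := by
      intro j
      rw [hb_apply]
      split_ifs with hj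
      · exact Submodule.zero_mem _
      · exact MF_cast (decPair_spec (sub_ne_zero.mpr (Ne.symm hj)) (hc j)).2.1 (by ring)
    have hΦ' : Phi Γ (topEmb Γ w r) + ⇑E₄ * Phi Γ a + ⇑E₆ * Phi Γ b = 0 := by
      rw [← Phi_mulE, ← Phi_mulE, ← map_add, ← map_add, ← hdecomp]
      exact hΦ
    -- the top part vanishes
    have hr0 : r = 0 := by
      apply eq_zero_of_linearCombination_mem Γ w r
      rw [mem_decSub]
      refine ⟨-Phi Γ a, Submodule.neg_mem _ (Phi_mem Γ ha), -Phi Γ b,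
        Submodule.neg_mem _ (Phi_mem Γ hb), ?_⟩
      rw [← Phi_topEmb]
      linear_combination hΦ'
    -- the regular sequence
    have hreg : ⇑E₄ * Phi Γ a + ⇑E₆ * Phi Γ b = 0 := by
      rw [hr0, topEmb_zero, map_zero, zero_add] at hΦ'
      exact hΦ'
    obtain ⟨Z, hZ, hZa, hZb⟩ := regular_E₄_E₆ w (Phi_mem Γ ha) (Phi_mem Γ hb) hreg
    obtain ⟨z, hz, hΦz⟩ := gen_coeff Γ hZ
    have ha' : a = mulE Γ ⇑E₆ z := by
      have h1 := ih (w - 4) (by omega) (a - mulE Γ ⇑E₆ z)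
        (Submodule.sub_mem _ ha (mulE_mem Γ L1.E₆_mem hz (by ring)))
        (by rw [map_sub, Phi_mulE, hΦz, hZa, sub_self])
      exact sub_eq_zero.mp h1
    have hb' : b = -mulE Γ ⇑E₄ z := by
      have h1 := ih (w - 6) (by omega) (b + mulE Γ ⇑E₄ z)
        (Submodule.add_mem _ hb (mulE_mem Γ L1.E₄_mem hz (by ring)))
        (by rw [map_add, Phi_mulE, hΦz, hZb, neg_add_cancel])
      exact eq_neg_of_add_eq_zero_left h1
    rw [hdecomp, hr0, topEmb_zero, ha', hb']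
    ext j z'
    simp only [Finsupp.add_apply, Finsupp.neg_apply, mulE_apply, Finsupp.coe_zero,
      Pi.zero_apply, Pi.add_apply, Pi.mul_apply, Pi.neg_apply, map_neg]
    ring

/-- **Freeness**: a combination of the generators with level one coefficients vanishes only
if all coefficients vanish. -/
theorem free_coeff {w : ℤ} {c : JJ Γ →₀ (ℍ → ℂ)} (hc : c ∈ coeffSub Γ w) (h : Phi Γ c = 0) :
    c = 0 :=
  free_aux Γ (w.toNat + 1) w (by push_cast; omega) c hc h

end Fermat.Agent.S20.GB140
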