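import Fermat.Agent.S20.GB140.Main
import Fermat.Agent.S20.Defs

/-!
# S20 — packages B (`exists_homBasis`) and C-core 1 (`pointwise_indep`) of the primary chain
(helper140), in the exact shapes of `HomBasis.lean` / `PointIndep.lean` of helper860's skeleton.
-/

set_option autoImplicit false

noncomputable section

namespace Fermat.Agent.S20.GB140

open Fermat.Agent.S20
open UpperHalfPlane ModularForm CongruenceSubgroup EisensteinSeries MatrixGroups Filter
open scoped Manifold Topology Real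

lemma neg_one_mem_Gamma0 (N : ℕ) : (-1 : SL(2, ℤ)) ∈ Gamma0 N := by
  rw [Gamma0_mem]
  simp

/-- **B**: existence of a finite homogeneous basis (shape of helper860's `exists_homBasis`). -/
theorem exists_homBasis (N : ℕ) [NeZero N] :
    ∃ (ι : Type) (_ : Fintype ι) (k : ι → ℤ) (F : ι → ℍ → ℂ), IsHomBasis N k F := by
  obtain ⟨J, hJ, wt, F, hmem, hgen, hfree, -⟩ :=
    exists_fintype_gradedBasis (Gamma0 N) (neg_one_mem_Gamma0 N)
  exact ⟨J, hJ, wt, F, ⟨hmem, hgen, hfree⟩⟩

/-- **C-core 1**: pointwise independence of any homogeneous basis (shape of helper860's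
`pointwise_indep`). -/
theorem pointwise_indep {N : ℕ} [NeZero N] {ι : Type} [Fintype ι] {k : ι → ℤ}
    {F : ι → ℍ → ℂ} (hB : IsHomBasis N k F) (τ : ℍ) :
    LinearIndependent ℂ
      (fun j : ι => fun q : SL(2, ℤ) ⧸ Gamma0 N => conj (Gamma0 N) (k j) (F j) q τ) :=
  H800.indep_ev_of_levelOneDivisor (H800.GradedBasis.of_fintype hB.mem hB.span hB.indep)
    (neg_one_mem_Gamma0 N)
    (fun hP _ _ hf h0 => KerEv292.ker_ev hP hf h0) L1.levelOneDivisor_E₆ L1.ST_smul_rhoPt
    L1.levelOneDivisor_E₄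
    (fun z₀ h4 h6 => ⟨12, _, L1.levelOneDivisor_generic z₀ h4 h6⟩) τ

end Fermat.Agent.S20.GB140
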