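import Fermat.Agent.S20.L1.Divisors
import Fermat.Agent.S20.L0_helper980
import Fermat.Agent.S20.KerEv_helper292
import Fermat.Agent.S20.C0_helper559

/-!
# S20 — graded basis, part A (helper140): level one decomposition and the regular sequence

* `levelOne_decomp` : every level one form of weight `w ≠ 0` is `E₄ a + E₆ b`;
* `eq_zero_of_E₄_mul_eq_zero` : `E₄` is not a zero divisor on continuous functions;
* `regular_E₄_E₆` : `E₄ X + E₆ Y = 0` in `MF Γ` implies `X = E₆ Z`, `Y = -E₄ Z`.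
-/

set_option autoImplicit false

noncomputable section

namespace Fermat.Agent.S20.GB140

open Fermat.Agent.S20
open UpperHalfPlane ModularForm EisensteinSeries MatrixGroups Filter
open scoped Manifold Topology Real

local notation "Δ" => ModularForm.discriminant

/-! ## Small closure facts -/

lemma mul_mem_MF_cast {Γ : Subgroup SL(2, ℤ)} {a k m : ℤ} {E f : ℍ → ℂ} (hE : E ∈ MF ⊤ a)
    (hf : f ∈ MF Γ k) (h : a + k = m) : E * f ∈ MF Γ m :=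
  h ▸ C0h559.mul_mem_MF hE hf

lemma MF_cast {Γ : Subgroup SL(2, ℤ)} {k m : ℤ} {f : ℍ → ℂ} (hf : f ∈ MF Γ k) (h : k = m) :
    f ∈ MF Γ m := h ▸ hf

lemma one_mem_MF_top : (1 : ℍ → ℂ) ∈ MF ⊤ 0 := by
  refine ⟨mdifferentiable_const, fun γ _ => is_invariant_one γ, fun γ => ?_⟩
  rw [is_invariant_one]
  exact Filter.const_boundedAtFilter _ (1 : ℂ)

lemma const_mem_MF_top (c : ℂ) : (fun _ : ℍ => c) ∈ MF ⊤ 0 := by
  have h : (fun _ : ℍ => c) = c • (1 : ℍ → ℂ) := by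
    funext z
    simp
  rw [h]
  exact Submodule.smul_mem _ _ one_mem_MF_top

lemma MF_top_neg {w : ℤ} (hw : w < 0) {c : ℍ → ℂ} (hc : c ∈ MF ⊤ w) : c = 0 := by
  have h := C0h559.MF_eq_bot_of_neg (Γ := ⊤) hw
  rw [h] at hc
  exact (Submodule.mem_bot ℂ).mp hc

lemma tendsto_of_mem_MF_top {w : ℤ} {c : ℍ → ℂ} (hc : c ∈ MF ⊤ w) :
    ∃ L : ℂ, Tendsto c atImInfty (𝓝 L) :=
  ⟨_, L1.levelOne_tendsto_atImInfty (C980.ofMFtop hc)⟩

lemma mem_SF_top_of_tendsto_zero {w : ℤ} {c : ℍ → ℂ} (hc : c ∈ MF ⊤ w)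
    (h0 : Tendsto c atImInfty (𝓝 0)) : c ∈ SF ⊤ w := by
  refine ⟨hc.1, hc.2.1, fun γ => ?_⟩
  rw [hc.2.1 γ (Subgroup.mem_top γ)]
  exact h0

/-! ## Monomials -/

/-- For every even `w ≥ 4` there is a level one form of weight `w` with value `1` at `i∞`
which is of the form `E₄ a + E₆ b`. -/
lemma exists_monomial (n : ℕ) :
    ∃ m : ℍ → ℂ, m ∈ MF ⊤ (4 + 2 * (n : ℤ)) ∧ Tendsto m atImInfty (𝓝 1) ∧
      ∃ a ∈ MF ⊤ (4 + 2 * (n : ℤ) - 4), ∃ b ∈ MF ⊤ (4 + 2 * (n : ℤ) - 6),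
        m = ⇑E₄ * a + ⇑E₆ * b := by
  induction n using Nat.strong_induction_on with
  | _ n ih =>
    rcases n with _ | _ | n
    · refine ⟨⇑E₄, by simpa using L1.E₄_mem, L1.tendsto_E₄, 1, by simpa using one_mem_MF_top,
        0, Submodule.zero_mem _, by simp⟩
    · refine ⟨⇑E₆, by simpa using L1.E₆_mem, L1.tendsto_E₆, 0, Submodule.zero_mem _, 1,
        by simpa using one_mem_MF_top, by simp⟩
    · obtain ⟨m, hm, hlim, -⟩ := ih n (by omega)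
      refine ⟨⇑E₄ * m, mul_mem_MF_cast L1.E₄_mem hm (by push_cast; ring), ?_, m,
        MF_cast hm (by push_cast; ring), 0, Submodule.zero_mem _, by simp⟩
      have h := L1.tendsto_E₄.mul hlim
      rw [one_mul] at h
      exact h

/-! ## Decomposition of level one forms -/

/-- Every level one form of nonzero weight lies in `E₄ · A + E₆ · A`. -/
theorem levelOne_decomp {w : ℤ} (hw : w ≠ 0) {c : ℍ → ℂ} (hc : c ∈ MF ⊤ w) :
    ∃ a ∈ MF ⊤ (w - 4), ∃ b ∈ MF ⊤ (w - 6), c = ⇑E₄ * a + ⇑E₆ * b := by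
  have hzero : c = 0 → ∃ a ∈ MF ⊤ (w - 4), ∃ b ∈ MF ⊤ (w - 6), c = ⇑E₄ * a + ⇑E₆ * b := by
    rintro rfl
    exact ⟨0, Submodule.zero_mem _, 0, Submodule.zero_mem _, by simp⟩
  rcases lt_or_gt_of_ne hw with hneg | hpos
  · exact hzero (MF_top_neg hneg hc)
  rcases Int.even_or_odd w with he | ho
  swap
  · apply hzero
    have := ModularForm.levelOne_odd_weight_eq_zero ho (C980.ofMFtop hc)
    have h2 := congrArg (fun f : ModularForm 𝒮ℒ w => (⇑f : ℍ → ℂ)) this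
    simpa using h2
  by_cases h2 : w = 2
  · subst h2
    apply hzero
    have := rank_zero_iff_forall_zero.mp ModularForm.levelOne_weight_two_rank_zero
      (C980.ofMFtop hc)
    have h2 := congrArg (fun f : ModularForm 𝒮ℒ 2 => (⇑f : ℍ → ℂ)) this
    simpa using h2
  -- now `w ≥ 4` is even
  obtain ⟨r, hr⟩ := he
  obtain ⟨n, hn⟩ : ∃ n : ℕ, w = 4 + 2 * (n : ℤ) := ⟨(r - 2).toNat, by omega⟩
  subst hn
  obtain ⟨m, hm, hmlim, a, ha, b, hb, hmab⟩ := exists_monomial n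
  obtain ⟨L, hL⟩ := tendsto_of_mem_MF_top hc
  have hd : c - L • m ∈ SF ⊤ (4 + 2 * (n : ℤ)) := by
    apply mem_SF_top_of_tendsto_zero (Submodule.sub_mem _ hc (Submodule.smul_mem _ _ hm))
    have h := hL.sub (hmlim.const_smul L)
    rw [smul_eq_mul, mul_one, sub_self] at h
    exact h
  obtain ⟨g, hg, hcg⟩ := C980.exists_eq_discriminant_mul_top hd
  have hE4sq : ⇑E₄ * (⇑E₄ * g) ∈ MF ⊤ (4 + 2 * (n : ℤ) - 4) :=
    mul_mem_MF_cast L1.E₄_mem (mul_mem_MF_cast L1.E₄_mem hg rfl) (by ring)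
  have hE6g : ⇑E₆ * g ∈ MF ⊤ (4 + 2 * (n : ℤ) - 6) :=
    mul_mem_MF_cast L1.E₆_mem hg (by ring)
  refine ⟨L • a + (1728 : ℂ)⁻¹ • (⇑E₄ * (⇑E₄ * g)),
    Submodule.add_mem _ (Submodule.smul_mem _ _ ha) (Submodule.smul_mem _ _ hE4sq),
    L • b - (1728 : ℂ)⁻¹ • (⇑E₆ * g),
    Submodule.sub_mem _ (Submodule.smul_mem _ _ hb) (Submodule.smul_mem _ _ hE6g), ?_⟩
  funext z
  have h1 := congrFun hcg z
  have h2 := congrFun hmab z
  have h3 := ModularForm.discriminant_eq_E₄_cube_sub_E₆_sq z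
  simp only [Pi.sub_apply, Pi.smul_apply, Pi.mul_apply, Pi.add_apply, smul_eq_mul] at h1 h2 ⊢
  rw [h3] at h1
  rw [h2] at h1
  linear_combination h1

/-! ## `E₄` is not a zero divisor -/

/-- If `E₄ * u = 0` with `u` holomorphic then `u = 0` (zeros of `E₄` are simple, hence
isolated). -/
theorem eq_zero_of_E₄_mul_eq_zero {u : ℍ → ℂ} (hu : MDiff u) (h : ⇑E₄ * u = 0) : u = 0 := by
  funext z₀
  have hz : ∀ z : ℍ, E₄ z ≠ 0 → u z = 0 := fun z hz => by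
    have := congrFun h z
    simp only [Pi.mul_apply, Pi.zero_apply, mul_eq_zero] at this
    exact this.resolve_left hz
  by_cases h0 : E₄ z₀ = 0
  swap
  · exact hz z₀ h0
  -- `z₀` is a simple zero of `E₄`
  have hd : deriv (⇑E₄ ∘ ofComplex) z₀ ≠ 0 := L1.deriv_E₄_ne_zero z₀ h0
  have hdiff : DifferentiableAt ℂ (⇑E₄ ∘ ofComplex) z₀ :=
    ((UpperHalfPlane.mdifferentiable_iff.mp L1.mdiff_E₄) z₀ z₀.im_pos).differentiableAt
      (isOpen_upperHalfPlaneSet.mem_nhds z₀.im_pos)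
  have hne : ∀ᶠ z in 𝓝[≠] (z₀ : ℂ), (⇑E₄ ∘ ofComplex) z ≠ 0 :=
    hdiff.hasDerivAt.eventually_ne hd
  have hopen : ∀ᶠ z in 𝓝[≠] (z₀ : ℂ), z ∈ upperHalfPlaneSet :=
    eventually_nhdsWithin_of_eventually_nhds (isOpen_upperHalfPlaneSet.mem_nhds z₀.im_pos)
  have hu0 : ∀ᶠ z in 𝓝[≠] (z₀ : ℂ), (u ∘ ofComplex) z = 0 := by
    filter_upwards [hne, hopen] with z hz1 hz2
    simp only [Function.comp_apply] at hz1 ⊢
    exact hz _ hz1
  have hcont : ContinuousAt (u ∘ ofComplex) (z₀ : ℂ) :=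
    (((UpperHalfPlane.mdifferentiable_iff.mp hu) z₀ z₀.im_pos).differentiableAt
      (isOpen_upperHalfPlaneSet.mem_nhds z₀.im_pos)).continuousAt
  have hlim : Tendsto (u ∘ ofComplex) (𝓝[≠] (z₀ : ℂ)) (𝓝 ((u ∘ ofComplex) z₀)) :=
    hcont.tendsto.mono_left nhdsWithin_le_nhds
  have hlim0 : Tendsto (u ∘ ofComplex) (𝓝[≠] (z₀ : ℂ)) (𝓝 0) :=
    tendsto_const_nhds.congr' (hu0.mono fun z hz => hz.symm)
  have := tendsto_nhds_unique hlim hlim0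
  simpa using this

/-! ## The regular sequence `(E₄, E₆)` on `⊕ MF Γ k` -/

/-- If `E₄ X + E₆ Y = 0` with `X ∈ MF Γ (w - 4)`, `Y ∈ MF Γ (w - 6)` then `X = E₆ Z`,
`Y = - E₄ Z` with `Z ∈ MF Γ (w - 10)`. -/
theorem regular_E₄_E₆ {Γ : Subgroup SL(2, ℤ)} [Γ.FiniteIndex] (w : ℤ) {X Y : ℍ → ℂ}
    (hX : X ∈ MF Γ (w - 4)) (hY : Y ∈ MF Γ (w - 6)) (h : ⇑E₄ * X + ⇑E₆ * Y = 0) :
    ∃ Z ∈ MF Γ (w - 10), X = ⇑E₆ * Z ∧ Y = -(⇑E₄ * Z) := by
  have hYzero : ∀ γ : SL(2, ℤ), Y (γ • L1.rhoPt) = 0 := fun γ => by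
    have h4 : E₄ (γ • L1.rhoPt) = 0 := (L1.E₄_eq_zero_iff _).mpr ⟨γ, rfl⟩
    have h6 : E₆ (γ • L1.rhoPt) ≠ 0 := L1.E₆_ne_zero_of_E₄_eq_zero h4
    have := congrFun h (γ • L1.rhoPt)
    simp only [Pi.add_apply, Pi.mul_apply, Pi.zero_apply, h4, zero_mul, zero_add,
      mul_eq_zero] at this
    exact this.resolve_left h6
  have hev : ev Γ (w - 6) L1.rhoPt Y = 0 := (C0h559.ev_eq_zero_iff hY.2.1 _).mpr hYzero
  obtain ⟨Z', hZ', hYZ⟩ := KerEv292.ker_ev L1.levelOneDivisor_E₄ hY hev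
  have hZ'' : Z' ∈ MF Γ (w - 10) := MF_cast hZ' (by ring)
  have hXZ : X + ⇑E₆ * Z' = 0 := by
    apply eq_zero_of_E₄_mul_eq_zero (hX.1.add (L1.mdiff_E₆.mul hZ'.1))
    rw [hYZ] at h
    rw [← h]
    ring
  refine ⟨-Z', Submodule.neg_mem _ hZ'', ?_, ?_⟩
  · rw [mul_neg]
    exact eq_neg_of_add_eq_zero_left hXZ
  · rw [mul_neg, neg_neg]
    exact hYZ

end Fermat.Agent.S20.GB140
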