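import Fermat.Agent.S20.GB140.Algebra
import Fermat.Agent.S20.H800.IndepMain

/-!
# S20 — existence of a graded basis (helper140)

`⊕ₖ MF Γ k` is a free module over the level one forms, with a FINITE homogeneous basis whose
vectors of conjugates are linearly independent at every point.

* `gradedBasis` : `H800.GradedBasis Γ (wtJ Γ) (FJ Γ)`;
* `indep_ev` : local independence at every point (from `H800.indep_ev_of_levelOneDivisor`);
* `finite_JJ` : the index type is finite;
* `exists_fintype_gradedBasis` : packaged statement with a `Fintype` index type and sums over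
  the whole index type (fields `mem`, `gen`, `indep` of `FundSystem` / `IsHomBasis`).
-/

set_option autoImplicit false

noncomputable section

namespace Fermat.Agent.S20.GB140

open Fermat.Agent.S20
open UpperHalfPlane ModularForm EisensteinSeries MatrixGroups Filter
open scoped Manifold Topology Real

variable (Γ : Subgroup SL(2, ℤ)) [Γ.FiniteIndex]

/-- The representatives of bases of `MF Γ w ⧸ (E₄ MF Γ (w-4) + E₆ MF Γ (w-6))` form a graded
basis. -/
theorem gradedBasis : H800.GradedBasis Γ (wtJ Γ) (FJ Γ) where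
  mem := FJ_mem Γ
  gen := fun k f hf => by
    obtain ⟨c, hc, hΦ⟩ := gen_coeff Γ hf
    refine ⟨c.support, fun j => c j, fun j _ => hc j, ?_⟩
    rw [← hΦ, Phi_apply]
    rfl
  free := fun k s c hc hsum j hj => by
    classical
    set c' : JJ Γ →₀ (ℍ → ℂ) := Finsupp.onFinset s (fun j => if j ∈ s then c j else 0)
      (fun j hj => by
        by_contra h
        exact hj (if_neg h)) with hc'_def
    have hc'_apply : ∀ j, c' j = if j ∈ s then c j else 0 := fun j => rfl
    have hc' : c' ∈ coeffSub Γ k := by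
      intro j
      rw [hc'_apply]
      split_ifs with h
      · exact hc j h
      · exact Submodule.zero_mem _
    have hΦ : Phi Γ c' = 0 := by
      rw [Phi_apply, Finsupp.sum_of_support_subset c' Finsupp.support_onFinset_subset
        (fun j a => a * FJ Γ j) (fun j _ => zero_mul _), ← hsum]
      refine Finset.sum_congr rfl fun j hj => ?_
      rw [hc'_apply, if_pos hj]
    have h0 := free_coeff Γ hc' hΦ
    have h1 := DFunLike.congr_fun h0 j
    rw [hc'_apply, if_pos hj] at h1
    exact h1

/-- Local independence of the graded basis at every point. -/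
theorem indep_ev (hneg : -1 ∈ Γ) (τ : ℍ) :
    LinearIndependent ℂ fun j : JJ Γ => ev Γ (wtJ Γ j) τ (FJ Γ j) :=
  H800.indep_ev_of_levelOneDivisor (gradedBasis Γ) hneg
    (fun hP _ _ hf h0 => KerEv292.ker_ev hP hf h0) L1.levelOneDivisor_E₆ L1.ST_smul_rhoPt
    L1.levelOneDivisor_E₄
    (fun z₀ h4 h6 => ⟨12, _, L1.levelOneDivisor_generic z₀ h4 h6⟩) τ

/-- The graded basis is finite. -/
theorem finite_JJ (hneg : -1 ∈ Γ) : Finite (JJ Γ) :=
  H800.finite_of_indep (indep_ev Γ hneg UpperHalfPlane.I)

/-- **Existence of a finite homogeneous basis** of `⊕ₖ MF Γ k` over the level one forms, with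
local independence at every point. -/
theorem exists_fintype_gradedBasis (hneg : -1 ∈ Γ) :
    ∃ (J : Type) (_ : Fintype J) (wt : J → ℤ) (F : J → ℍ → ℂ),
      (∀ j, F j ∈ MF Γ (wt j)) ∧
      (∀ (k : ℤ) (f : ℍ → ℂ), f ∈ MF Γ k →
        ∃ c : J → ℍ → ℂ, (∀ j, c j ∈ MF ⊤ (k - wt j)) ∧ f = ∑ j, c j * F j) ∧
      (∀ (k : ℤ) (c : J → ℍ → ℂ), (∀ j, c j ∈ MF ⊤ (k - wt j)) →
        ∑ j, c j * F j = 0 → ∀ j, c j = 0) ∧
      (∀ τ : ℍ, LinearIndependent ℂ fun j => ev Γ (wt j) τ (F j)) := by
  classical
  have := finite_JJ Γ hneg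
  let _ : Fintype (JJ Γ) := Fintype.ofFinite _
  have B := gradedBasis Γ
  refine ⟨JJ Γ, inferInstance, wtJ Γ, FJ Γ, B.mem, fun k f hf => ?_, fun k c hc hsum j => ?_,
    indep_ev Γ hneg⟩
  · obtain ⟨s, c, hc, hf'⟩ := B.gen k f hf
    refine ⟨fun j => if j ∈ s then c j else 0, fun j => ?_, ?_⟩
    · show (if j ∈ s then c j else 0) ∈ MF ⊤ (k - wtJ Γ j)
      split_ifs with h
      · exact hc j h
      · exact Submodule.zero_mem _
    · rw [hf', ← Finset.sum_subset (Finset.subset_univ s)]
      · exact Finset.sum_congr rfl fun j hj => by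
          show c j * FJ Γ j = (if j ∈ s then c j else 0) * FJ Γ j
          rw [if_pos hj]
      · intro j _ hj
        show (if j ∈ s then c j else 0) * FJ Γ j = 0
        rw [if_neg hj, zero_mul]
  · exact B.free k Finset.univ c (fun j _ => hc j) hsum j (Finset.mem_univ j)

end Fermat.Agent.S20.GB140
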